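/-
S31 (Program A++), leaf (U0a): Lucas polynomials.

`lucas t n i` is the `i`-th power sum of the two roots of `X ^ 2 - t X + n`.

* `lucas_rel`: if `h` commutes with `t`, `n` commutes with `h` and `t`, and
  `h * h - t * h + n = 0`, then `h ^ i * h ^ i - lucas t n i * h ^ i + n ^ i = 0`.
* `trace_pow_eq_lucas`: for an endomorphism `A` of a free module of rank two with
  characteristic polynomial `X ^ 2 - t X + d`, `trace (A ^ i) = lucas t d i`.
* `map_lucas`: compatibility with ring homomorphisms.
-/
import Mathlib

set_option autoImplicit false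

namespace Fermat.Agent.S31.H4

open Polynomial

/-- The Lucas sequence `V_i(t, n)`: `V_0 = 2`, `V_1 = t`, `V_{i+2} = t V_{i+1} - n V_i`. -/
def lucas {A : Type*} [Ring A] (t n : A) : ℕ → A
  | 0 => 2
  | 1 => t
  | (i + 2) => t * lucas t n (i + 1) - n * lucas t n i

@[simp] theorem lucas_zero {A : Type*} [Ring A] (t n : A) : lucas t n 0 = 2 := rfl

@[simp] theorem lucas_one {A : Type*} [Ring A] (t n : A) : lucas t n 1 = t := rfl

theorem lucas_add_two {A : Type*} [Ring A] (t n : A) (i : ℕ) :
    lucas t n (i + 2) = t * lucas t n (i + 1) - n * lucas t n i := rfl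

theorem map_lucas {A B : Type*} [Ring A] [Ring B] (f : A →+* B) (t n : A) (i : ℕ) :
    f (lucas t n i) = lucas (f t) (f n) i := by
  induction i using Nat.strong_induction_on with
  | _ i ih =>
    match i with
    | 0 => rw [lucas_zero, lucas_zero]; exact map_ofNat f 2
    | 1 => simp
    | (j + 2) =>
      rw [lucas_add_two, lucas_add_two, map_sub, map_mul, map_mul, ih (j + 1) (by omega),
        ih j (by omega)]

/-- Power sums: if `h` and `h'` commute, `h + h' = t` and `h * h' = n`, then
`h ^ i + h' ^ i = lucas t n i`. -/
theorem pow_add_pow_eq_lucas {A : Type*} [Ring A] {h h' t n : A} (hc : Commute h h')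
    (hadd : h + h' = t) (hmul : h * h' = n) (i : ℕ) : h ^ i + h' ^ i = lucas t n i := by
  induction i using Nat.strong_induction_on with
  | _ i ih =>
    match i with
    | 0 => simp; norm_num
    | 1 => simpa using hadd
    | (j + 2) =>
      rw [lucas_add_two, ← ih (j + 1) (by omega), ← ih j (by omega), ← hadd, ← hmul]
      have h1 : h' * h ^ (j + 1) = h ^ (j + 1) * h' := (hc.symm.pow_right (j + 1)).eq
      have h2 : h' * h ^ j = h ^ j * h' := (hc.symm.pow_right j).eq
      have e1 : (h + h') * (h ^ (j + 1) + h' ^ (j + 1)) =
          h ^ (j + 2) + h * h' ^ (j + 1) + h ^ (j + 1) * h' + h' ^ (j + 2) := by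
        rw [add_mul, mul_add, mul_add, h1, ← pow_succ' h (j + 1), ← pow_succ' h' (j + 1)]
        abel
      have e2 : h * h' * (h ^ j + h' ^ j) = h ^ (j + 1) * h' + h * h' ^ (j + 1) := by
        rw [mul_add, mul_assoc, h2, ← mul_assoc, ← pow_succ' h j, mul_assoc, ← pow_succ' h' j]
      rw [e1, e2]
      abel

/-- The quadratic relation satisfied by a power of a root of `X ^ 2 - t X + n`. -/
theorem lucas_rel {A : Type*} [Ring A] {h t n : A} (hht : Commute h t)
    (hrel : h * h - t * h + n = 0) (i : ℕ) :
    h ^ i * h ^ i - lucas t n i * h ^ i + n ^ i = 0 := by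
  set h' := t - h with hh'
  have hc : Commute h h' := hht.sub_right (Commute.refl h)
  have hadd : h + h' = t := by rw [hh']; abel
  have hmul : h * h' = n := by
    rw [hh', mul_sub, hht.eq]
    have : t * h - h * h = n - (h * h - t * h + n) := by abel
    rw [this, hrel, sub_zero]
  rw [← pow_add_pow_eq_lucas hc hadd hmul i, add_mul, ← hmul, hc.mul_pow,
    (hc.symm.pow_pow i i).eq]
  abel

section Trace

variable {T : Type*} [CommRing T] {V : Type*} [AddCommGroup V] [Module T V] [Module.Free T V]
  [Module.Finite T V]

/-- For an endomorphism of a free module of rank two with characteristic polynomial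
`X ^ 2 - t X + d`: the trace is `t`. -/
theorem trace_eq_of_charpoly [Nontrivial T] (hV : Module.finrank T V = 2) (A : Module.End T V)
    (t d : T) (hA : A.charpoly = X ^ 2 - C t * X + C d) : LinearMap.trace T V A = t := by
  classical
  let b := Module.finBasisOfFinrankEq T V hV
  have h1 : (LinearMap.toMatrix b b A).charpoly = X ^ 2 - C t * X + C d := by
    rw [LinearMap.charpoly_toMatrix, hA]
  rw [LinearMap.trace_eq_matrix_trace T b, Matrix.trace_eq_neg_charpoly_coeff, h1]
  simp [coeff_C]

/-- For an endomorphism of a free module of rank two with characteristic polynomial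
`X ^ 2 - t X + d`: `A ^ 2 = t A - d`. -/
theorem sq_eq_of_charpoly (A : Module.End T V)
    (t d : T) (hA : A.charpoly = X ^ 2 - C t * X + C d) :
    A * A - t • A + d • (1 : Module.End T V) = 0 := by
  have h := LinearMap.aeval_self_charpoly A
  rw [hA] at h
  simp only [map_add, map_sub, map_mul, map_pow, aeval_X, aeval_C] at h
  rw [← h, pow_two, Algebra.algebraMap_eq_smul_one, Algebra.algebraMap_eq_smul_one, smul_mul_assoc,
    one_mul]

/-- For an endomorphism `A` of a free module of rank two with characteristic polynomial
`X ^ 2 - t X + d`: `trace (A ^ i) = lucas t d i`. -/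
theorem trace_pow_eq_lucas [Nontrivial T] (hV : Module.finrank T V = 2) (A : Module.End T V)
    (t d : T) (hA : A.charpoly = X ^ 2 - C t * X + C d) (i : ℕ) :
    LinearMap.trace T V (A ^ i) = lucas t d i := by
  induction i using Nat.strong_induction_on with
  | _ i ih =>
    match i with
    | 0 =>
      rw [pow_zero, LinearMap.trace_one, hV, lucas_zero]
      norm_num
    | 1 => rw [pow_one, lucas_one]; exact trace_eq_of_charpoly hV A t d hA
    | (j + 2) =>
      have hsq := sq_eq_of_charpoly A t d hA
      have hA2 : A * A = t • A - d • (1 : Module.End T V) := by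
        have : A * A = (A * A - t • A + d • (1 : Module.End T V)) + (t • A - d • 1) := by abel
        rw [this, hsq, zero_add]
      have hpow : A ^ (j + 2) = t • A ^ (j + 1) - d • A ^ j := by
        rw [show j + 2 = j + (1 + 1) by ring, pow_add, pow_add A 1 1, pow_one, hA2, mul_sub,
          mul_smul_comm, mul_smul_comm, mul_one, ← pow_succ]
      rw [hpow, map_sub, map_smul, map_smul, ih (j + 1) (by omega), ih j (by omega), lucas_add_two,
        smul_eq_mul, smul_eq_mul]

end Trace

end Fermat.Agent.S31.H4
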