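/-
S31 (Program A++), leaf (U0): the abstract trace comparison.

* `trace_mul_mem`: the trace of `A * B` lies in `𝔟` as soon as `B` maps into `𝔟 • ⊤`.
* `trace_sub_mem_of_level`: the comparison of `trace (ρ (g * τ))` and `trace (ρ g)` through one
  "level" `W` (a finite Galois–Hecke module on which `τ` acts trivially).
* `eq_one_of_trace_eq`: if the `T`-span of `ρ(G)` is everything and `trace (ρ (g * τ)) =
  trace (ρ g)` for all `g`, then `ρ τ = 1`.
-/
import Mathlib
import Fermat.Agent.S31.H4.Lucas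

set_option autoImplicit false

namespace Fermat.Agent.S31.H4

open Polynomial

section TraceMem

variable {T : Type*} [CommRing T] {V : Type*} [AddCommGroup V] [Module T V] [Module.Free T V]
  [Module.Finite T V]

omit [Module.Free T V] [Module.Finite T V] in
/-- Coordinates of an element of `𝔟 • ⊤` lie in `𝔟`. -/
theorem repr_mem_of_mem_smul_top {ι : Type*} (b : Module.Basis ι T V) (𝔟 : Ideal T) {x : V}
    (hx : x ∈ 𝔟 • (⊤ : Submodule T V)) (i : ι) : b.repr x i ∈ 𝔟 := by
  refine Submodule.smul_induction_on hx ?_ ?_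
  · intro r hr v _
    rw [map_smul, Finsupp.smul_apply, smul_eq_mul]
    exact Ideal.mul_mem_right _ _ hr
  · intro x y hx hy
    rw [map_add, Finsupp.add_apply]
    exact Ideal.add_mem _ hx hy

/-- The trace of an endomorphism with values in `𝔟 • ⊤` lies in `𝔟`. -/
theorem trace_mem_of_forall_mem (𝔟 : Ideal T) (B : Module.End T V)
    (hB : ∀ v, B v ∈ 𝔟 • (⊤ : Submodule T V)) : LinearMap.trace T V B ∈ 𝔟 := by
  classical
  let b := Module.Free.chooseBasis T V
  rw [LinearMap.trace_eq_matrix_trace T b, Matrix.trace]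
  refine Ideal.sum_mem _ fun i _ => ?_
  rw [Matrix.diag_apply, LinearMap.toMatrix_apply]
  exact repr_mem_of_mem_smul_top b 𝔟 (hB _) i

/-- The trace of `A * B` lies in `𝔟` as soon as `B` has values in `𝔟 • ⊤`. -/
theorem trace_mul_mem (𝔟 : Ideal T) (A B : Module.End T V)
    (hB : ∀ v, B v ∈ 𝔟 • (⊤ : Submodule T V)) : LinearMap.trace T V (A * B) ∈ 𝔟 := by
  refine trace_mem_of_forall_mem 𝔟 (A * B) fun v => ?_
  have h1 : (𝔟 • (⊤ : Submodule T V)).map A ≤ 𝔟 • (⊤ : Submodule T V) := by
    rw [Submodule.map_smul'']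
    exact Submodule.smul_mono le_rfl le_top
  exact h1 (Submodule.mem_map_of_mem (hB v))

end TraceMem

section Level

variable {G : Type*} [Group G]
  {T : Type*} [CommRing T] [Nontrivial T]
  {V : Type*} [AddCommGroup V] [Module T V] [Module.Free T V] [Module.Finite T V]
  {R : Type*} [CommRing R]
  {W : Type*} [AddCommGroup W]
  {Λ : Type*}

/-- **The trace comparison through one level.**

`ρ` is a representation of `G` on a free `T`-module of rank two, `π : R → T` a ring homomorphism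
and `W` an abelian group killed by `pk` with an action `ρW` of `G` and commuting operators
`TW l`.  For `l : Λ` the elements of `Frob l` ("Frobenius lifts at `l`") satisfy the quadratic
relation `h ^ 2 - TW l * h + nn l = 0` on `W`, have characteristic polynomial
`X ^ 2 - π (tR l) X + nn l` under `ρ`, and act on "roots of unity" through `ε h = nn l`.  Every
element of `G` is of the form `h ^ i * s` with `h` a Frobenius lift and `s` in a subgroup `H` which
acts trivially on `W`, trivially under `ε` and trivially modulo `𝔟` under `ρ`.  The set `I` acts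
trivially on `W` and under `ε`.  If the Hecke side is "faithful modulo `𝔞`" (`hfaith`), then
`trace (ρ (g * τ)) - trace (ρ g) ∈ 𝔟 ⊔ 𝔞` for all `g` and `τ ∈ I`. -/
theorem trace_sub_mem_of_level (hV : Module.finrank T V = 2)
    (ρ : G →* Module.End T V) (π : R →+* T) (𝔞 𝔟 : Ideal T)
    (ρW : G →* AddMonoid.End W) (pk : ℕ) (hpk : ∀ w : W, pk • w = 0)
    (ε : G →* ZMod pk)
    (tR : Λ → R) (nn : Λ → ℤ) (TW : Λ → AddMonoid.End W) (Frob : Λ → Set G)
    (H : Subgroup G)
    (hHW : ∀ s ∈ H, ρW s = 1)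
    (hHε : ∀ s ∈ H, ε s = 1)
    (hHρ : ∀ s ∈ H, ∀ v, ρ s v - v ∈ 𝔟 • (⊤ : Submodule T V))
    (hdense : ∀ g : G, ∃ (l : Λ) (h : G) (i : ℕ) (s : G), h ∈ Frob l ∧ s ∈ H ∧ g = h ^ i * s)
    (hcomm : ∀ (l : Λ) (g : G), Commute (ρW g) (TW l))
    (hrelW : ∀ (l : Λ), ∀ h ∈ Frob l, ρW h * ρW h - TW l * ρW h + (nn l : AddMonoid.End W) = 0)
    (hε : ∀ (l : Λ), ∀ h ∈ Frob l, ε h = (nn l : ZMod pk))
    (hcharρ : ∀ (l : Λ), ∀ h ∈ Frob l,
      (ρ h).charpoly = X ^ 2 - C (π (tR l)) * X + C ((nn l : ℤ) : T))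
    (I : Set G) (hIW : ∀ τ ∈ I, ρW τ = 1) (hIε : ∀ τ ∈ I, ε τ = 1)
    (hfaith : ∀ (l l' : Λ) (i i' : ℕ),
      lucas (TW l) (nn l : AddMonoid.End W) i = lucas (TW l') (nn l' : AddMonoid.End W) i' →
        π (lucas (tR l) (nn l : R) i) - π (lucas (tR l') (nn l' : R) i') ∈ 𝔞)
    (g τ : G) (hτ : τ ∈ I) :
    LinearMap.trace T V (ρ (g * τ)) - LinearMap.trace T V (ρ g) ∈ 𝔟 ⊔ 𝔞 := by
  -- the basic congruence for one element
  have key : ∀ (x : G) (l : Λ) (h : G) (i : ℕ) (s : G), h ∈ Frob l → s ∈ H → x = h ^ i * s →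
      LinearMap.trace T V (ρ x) - π (lucas (tR l) (nn l : R) i) ∈ 𝔟 := by
    intro x l h i s hh hs hx
    have h1 : ρ x = ρ h ^ i + ρ h ^ i * (ρ s - 1) := by
      rw [hx, map_mul, map_pow, mul_sub, mul_one]; abel
    have h2 : LinearMap.trace T V (ρ h ^ i) = π (lucas (tR l) (nn l : R) i) := by
      rw [trace_pow_eq_lucas hV (ρ h) _ _ (hcharρ l h hh) i, map_lucas, map_intCast]
    rw [h1, map_add, h2, add_sub_cancel_left]
    refine trace_mul_mem 𝔟 _ _ fun v => ?_
    simpa using hHρ s hs v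
  obtain ⟨l, h, i, s, hh, hs, hg⟩ := hdense g
  obtain ⟨l', h', i', s', hh', hs', hg'⟩ := hdense (g * τ)
  have k1 := key g l h i s hh hs hg
  have k2 := key (g * τ) l' h' i' s' hh' hs' hg'
  -- the action on `W`
  have hγ : ρW g = ρW h ^ i := by rw [hg, map_mul, map_pow, hHW s hs, mul_one]
  have hγ' : ρW g = ρW h' ^ i' := by
    have : ρW (g * τ) = ρW g := by rw [map_mul, hIW τ hτ, mul_one]
    rw [← this, hg', map_mul, map_pow, hHW s' hs', mul_one]
  -- the cyclotomic character
  have hεeq : ((nn l : ZMod pk)) ^ i = ((nn l' : ZMod pk)) ^ i' := by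
    have e1 : ε g = (nn l : ZMod pk) ^ i := by
      rw [hg, map_mul, map_pow, hHε s hs, mul_one, hε l h hh]
    have e2 : ε (g * τ) = (nn l' : ZMod pk) ^ i' := by
      rw [hg', map_mul, map_pow, hHε s' hs', mul_one, hε l' h' hh']
    rw [← e1, ← e2, map_mul, hIε τ hτ, mul_one]
  have hnn : ((nn l : AddMonoid.End W)) ^ i = ((nn l' : AddMonoid.End W)) ^ i' := by
    have hz : ((nn l ^ i - nn l' ^ i' : ℤ) : ZMod pk) = 0 := by
      push_cast; rw [hεeq, sub_self]
    rw [ZMod.intCast_zmod_eq_zero_iff_dvd] at hz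
    obtain ⟨z, hz⟩ := hz
    have : ((nn l ^ i - nn l' ^ i' : ℤ) : AddMonoid.End W) = 0 := by
      ext w
      rw [AddMonoid.End.intCast_apply, hz, mul_smul, natCast_zsmul]
      have : pk • (z • w) = 0 := hpk _
      simpa using this
    have h3 : ((nn l ^ i : ℤ) : AddMonoid.End W) = ((nn l' ^ i' : ℤ) : AddMonoid.End W) := by
      rw [← sub_eq_zero, ← Int.cast_sub]; exact this
    simpa using h3
  -- the two quadratic relations for `γ = ρW g`
  have r1 := lucas_rel (hcomm l h) (hrelW l h hh) i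
  have r2 := lucas_rel (hcomm l' h') (hrelW l' h' hh') i'
  rw [← hγ] at r1
  rw [← hγ', ← hnn] at r2
  have hD : (lucas (TW l) (nn l : AddMonoid.End W) i -
      lucas (TW l') (nn l' : AddMonoid.End W) i') * ρW g = 0 := by
    have : (lucas (TW l) (nn l : AddMonoid.End W) i -
        lucas (TW l') (nn l' : AddMonoid.End W) i') * ρW g =
        (ρW g * ρW g - lucas (TW l') (nn l' : AddMonoid.End W) i' * ρW g +
          (nn l : AddMonoid.End W) ^ i) -
        (ρW g * ρW g - lucas (TW l) (nn l : AddMonoid.End W) i * ρW g +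
          (nn l : AddMonoid.End W) ^ i) := by
      rw [sub_mul]; abel
    rw [this, r1, r2, sub_zero]
  have hD' : lucas (TW l) (nn l : AddMonoid.End W) i =
      lucas (TW l') (nn l' : AddMonoid.End W) i' := by
    have hinv : ρW g * ρW g⁻¹ = 1 := by rw [← map_mul, mul_inv_cancel, map_one]
    have := congrArg (· * ρW g⁻¹) hD
    simp only [mul_assoc, hinv, mul_one, zero_mul] at this
    exact sub_eq_zero.mp this
  have k3 := hfaith l l' i i' hD'
  have : LinearMap.trace T V (ρ (g * τ)) - LinearMap.trace T V (ρ g) =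
      (LinearMap.trace T V (ρ (g * τ)) - π (lucas (tR l') (nn l' : R) i')) -
      (LinearMap.trace T V (ρ g) - π (lucas (tR l) (nn l : R) i)) -
      (π (lucas (tR l) (nn l : R) i) - π (lucas (tR l') (nn l' : R) i')) := by ring
  rw [this]
  exact Submodule.sub_mem _ (Submodule.sub_mem _ (Ideal.mem_sup_left k2) (Ideal.mem_sup_left k1))
    (Ideal.mem_sup_right k3)

end Level

section Final

variable {G : Type*} [Group G]
  {T : Type*} [CommRing T]
  {V : Type*} [AddCommGroup V] [Module T V] [Module.Free T V] [Module.Finite T V]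

/-- If the `T`-span of `ρ(G)` is the whole endomorphism ring and
`trace (ρ (g * τ)) = trace (ρ g)` for all `g`, then `ρ τ = 1`. -/
theorem eq_one_of_trace_eq (ρ : G →* Module.End T V)
    (hspan : Submodule.span T (Set.range ρ) = ⊤) (τ : G)
    (htr : ∀ g : G, LinearMap.trace T V (ρ (g * τ)) = LinearMap.trace T V (ρ g)) : ρ τ = 1 := by
  have h1 : ∀ Y : Module.End T V, LinearMap.trace T V (Y * (ρ τ - 1)) = 0 := by
    intro Y
    have hY : Y ∈ Submodule.span T (Set.range ρ) := by rw [hspan]; trivial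
    induction hY using Submodule.span_induction with
    | mem y hy =>
      obtain ⟨g, rfl⟩ := hy
      rw [mul_sub, mul_one, ← map_mul, map_sub, htr g, sub_self]
    | zero => simp
    | add x y _ _ hx hy => rw [add_mul, map_add, hx, hy, add_zero]
    | smul c x _ hx => rw [smul_mul_assoc, map_smul, hx, smul_zero]
  have h2 : ∀ u : V, (ρ τ - 1) u = 0 := by
    intro u
    rw [← Module.forall_dual_apply_eq_zero_iff T]
    intro φ
    have h3 := h1 (dualTensorHom T V V (φ ⊗ₜ u))
    have h4 : dualTensorHom T V V (φ ⊗ₜ u) * (ρ τ - 1) =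
        dualTensorHom T V V ((φ.comp (ρ τ - 1)) ⊗ₜ u) := by
      ext x
      simp [dualTensorHom_apply]
    rw [h4, LinearMap.trace_eq_contract_apply, contractLeft_apply] at h3
    simpa using h3
  have h5 : ρ τ - 1 = 0 := LinearMap.ext h2
  exact sub_eq_zero.mp h5

/-- Version with congruences modulo all powers of an ideal `𝔪` with `⋂ 𝔪 ^ n = 0`. -/
theorem eq_one_of_trace_sub_mem (ρ : G →* Module.End T V)
    (hspan : Submodule.span T (Set.range ρ) = ⊤) (𝔪 : Ideal T)
    (hsep : ∀ x : T, (∀ n : ℕ, x ∈ 𝔪 ^ n) → x = 0) (τ : G)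
    (htr : ∀ (n : ℕ) (g : G),
      LinearMap.trace T V (ρ (g * τ)) - LinearMap.trace T V (ρ g) ∈ 𝔪 ^ n) : ρ τ = 1 :=
  eq_one_of_trace_eq ρ hspan τ fun g => sub_eq_zero.mp (hsep _ fun n => htr n g)

end Final

end Fermat.Agent.S31.H4
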